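import Mathlib

set_option autoImplicit false

/-!
# From the elementwise regularity statement to the local ring of a closed point

Bridge between the landed elementwise statement
`RegAt p M : ∃ z ∈ M, ∀ m ∈ M, ∃ s ∉ M, s * m ∈ (p, z)` (chart ring `C`, closed point `M` of the
special fibre `p = 0`) and the hypotheses of `Disc/RegLocal` on `R = Localization.AtPrime M`:

* `maximalIdeal_atPrime_eq` : the maximal ideal of `C_M` is `(p, z)`;
* `prime_algebraMap_atPrime` : `p` stays prime in `C_M`;
* `exists_sub_mem_maximalIdeal` : if `C / M` is covered by `O` (a rational closed point), so is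
  the residue field of `C_M`;
* `exists_algHom_atPrime` : an `O`-point of `C` that reduces to `M` extends to `C_M`.

Mathlib only; the regularity hypothesis is spelled out so that `RegNB.RegAt` can be passed by
definitional unfolding without importing the model files.
-/

namespace Fermat.Agent.S19.Disc.RegLoc

open IsLocalRing

variable {C : Type*} [CommRing C]

/-- If `M` is locally generated by `p` and `z`, the maximal ideal of `C_M` is `(p, z)`. -/
theorem maximalIdeal_atPrime_eq (M : Ideal C) [M.IsPrime] (p z : C) (hp : p ∈ M) (hz : z ∈ M)
    (hreg : ∀ m ∈ M, ∃ s, s ∉ M ∧ s * m ∈ Ideal.span {p, z}) :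
    maximalIdeal (Localization.AtPrime M) =
      Ideal.span {algebraMap C (Localization.AtPrime M) p,
        algebraMap C (Localization.AtPrime M) z} := by
  rw [← Localization.AtPrime.map_eq_maximalIdeal]
  apply le_antisymm
  · rw [Ideal.map_le_iff_le_comap]
    intro m hm
    obtain ⟨s, hs, hsm⟩ := hreg m hm
    rw [Ideal.mem_comap]
    have hu : IsUnit (algebraMap C (Localization.AtPrime M) s) :=
      IsLocalization.map_units (Localization.AtPrime M) (⟨s, hs⟩ : M.primeCompl)
    have h1 : algebraMap C (Localization.AtPrime M) (s * m) ∈
        Ideal.span {algebraMap C (Localization.AtPrime M) p,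
          algebraMap C (Localization.AtPrime M) z} := by
      have := Ideal.mem_map_of_mem (algebraMap C (Localization.AtPrime M)) hsm
      rwa [Ideal.map_span, Set.image_pair] at this
    rw [map_mul] at h1
    exact (Ideal.unit_mul_mem_iff_mem _ hu).mp h1
  · rw [Ideal.span_le]
    rintro x (rfl | rfl)
    · exact Ideal.mem_map_of_mem _ hp
    · exact Ideal.mem_map_of_mem _ hz

/-- A prime element of a domain lying in `M` stays prime in `C_M`. -/
theorem prime_algebraMap_atPrime [IsDomain C] (M : Ideal C) [M.IsPrime] (p : C) (hp : Prime p)
    (hpM : p ∈ M) : Prime (algebraMap C (Localization.AtPrime M) p) := by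
  have hne : algebraMap C (Localization.AtPrime M) p ≠ 0 := by
    rw [Ne, IsLocalization.to_map_eq_zero_iff (Localization.AtPrime M)
      M.primeCompl_le_nonZeroDivisors]
    exact hp.ne_zero
  rw [← Ideal.span_singleton_prime hne]
  have hP : (Ideal.span {p} : Ideal C).IsPrime := (Ideal.span_singleton_prime hp.ne_zero).mpr hp
  have hdisj : Disjoint (M.primeCompl : Set C) ((Ideal.span {p} : Ideal C) : Set C) := by
    rw [Set.disjoint_left]
    intro x hx hx'
    exact hx ((Ideal.span_le.mpr (Set.singleton_subset_iff.mpr hpM)) hx')
  have := IsLocalization.isPrime_of_isPrime_disjoint M.primeCompl (Localization.AtPrime M) _ hP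
    hdisj
  rwa [Ideal.map_span, Set.image_singleton] at this

variable {O : Type*} [CommRing O] [Algebra O C]

/-- At a rational closed point the residue field of `C_M` is covered by `O`. -/
theorem exists_sub_mem_maximalIdeal (M : Ideal C) [hM : M.IsMaximal]
    (hres : ∀ c : C, ∃ a : O, c - algebraMap O C a ∈ M) (f : Localization.AtPrime M) :
    ∃ a : O, f - algebraMap O (Localization.AtPrime M) a ∈
      maximalIdeal (Localization.AtPrime M) := by
  obtain ⟨c, s, rfl⟩ := IsLocalization.exists_mk'_eq M.primeCompl f
  -- `s` is invertible modulo `M`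
  obtain ⟨t, ht⟩ : ∃ t : C, s.1 * t - 1 ∈ M := by
    have hs : (s : C) ∉ M := s.2
    obtain ⟨t, ht⟩ := Ideal.IsMaximal.exists_inv hM hs
    obtain ⟨m, hm, h⟩ := ht
    refine ⟨t, ?_⟩
    have : (s : C) * t - 1 = -m := by
      have h' : t * (s : C) + m = 1 := h
      linear_combination h'
    rw [this]
    exact M.neg_mem hm
  obtain ⟨a, ha⟩ := hres (c * t)
  refine ⟨a, ?_⟩
  rw [← Localization.AtPrime.map_eq_maximalIdeal]
  have hu : IsUnit (algebraMap C (Localization.AtPrime M) s) :=
    IsLocalization.map_units (Localization.AtPrime M) s
  have h1 : algebraMap C (Localization.AtPrime M) s *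
      (IsLocalization.mk' (Localization.AtPrime M) c s -
        algebraMap O (Localization.AtPrime M) a) ∈
      Ideal.map (algebraMap C (Localization.AtPrime M)) M := by
    have h2 : algebraMap C (Localization.AtPrime M) s *
        (IsLocalization.mk' (Localization.AtPrime M) c s -
          algebraMap O (Localization.AtPrime M) a) =
        algebraMap C (Localization.AtPrime M)
          ((s : C) * (c * t - algebraMap O C a) - c * ((s : C) * t - 1)) := by
      rw [mul_sub, mul_comm _ (IsLocalization.mk' _ c s), IsLocalization.mk'_spec,
        IsScalarTower.algebraMap_apply O C (Localization.AtPrime M), ← map_mul, ← map_sub]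
      congr 1
      ring
    rw [h2]
    exact Ideal.mem_map_of_mem _ (M.sub_mem (M.mul_mem_left _ ha) (M.mul_mem_left _ ht))
  exact (Ideal.unit_mul_mem_iff_mem _ hu).mp h1

/-- An `O`-point of the chart that sends the complement of `M` to units extends to the local
ring `C_M`. -/
theorem exists_algHom_atPrime (M : Ideal C) [M.IsPrime] (ev : C →ₐ[O] O)
    (hev : ∀ c : C, c ∉ M → IsUnit (ev c)) :
    ∃ ev' : Localization.AtPrime M →ₐ[O] O,
      ∀ c : C, ev' (algebraMap C (Localization.AtPrime M) c) = ev c := by
  have hu : ∀ y : M.primeCompl, IsUnit ((ev : C →+* O) y) := fun y => hev y y.2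
  refine ⟨{ IsLocalization.lift (M := M.primeCompl) (S := Localization.AtPrime M) hu with
      commutes' := fun a => ?_ }, fun c => ?_⟩
  · show IsLocalization.lift hu (algebraMap O (Localization.AtPrime M) a) = algebraMap O O a
    rw [IsScalarTower.algebraMap_apply O C (Localization.AtPrime M), IsLocalization.lift_eq]
    simp
  · show IsLocalization.lift hu (algebraMap C (Localization.AtPrime M) c) = ev c
    rw [IsLocalization.lift_eq]
    rfl

end Fermat.Agent.S19.Disc.RegLoc
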