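import Mathlib

set_option autoImplicit false

/-!
# Points and zeros on a regular residue disc: the local algebra

`O` is a discrete valuation ring with uniformiser `π`, `R` is a noetherian local `O`-algebra
whose maximal ideal is generated by `π` and one more element `z` ("regular at the closed point":
in the application `R` is a chart ring of the good model of `X₀(N)` localised at a closed point
of the special fibre, `z` the parameter given by `RegAt`).  An `O`-point of the residue disc is
an `O`-algebra map `ev : R →ₐ[O] O`; its coordinate is `ev z ∈ π O`.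

* `eval_param_dvd` : the coordinate of a point lies in `π O`.
* `ker_eq_span_sub` : the kernel of a point is the principal ideal `(z - x)`, `x = ev z`.
* `exists_eq_add_mul` : division with remainder by `z - x` (first step of every expansion).
* `eval_eq_of_param_eq` : a point is determined by its coordinate (Taylor argument; the target
  may be any `O`-algebra in which the ideal `(π, x)` is separated, e.g. a valuation ring of
  rank one containing `O`).
* `exists_prime_of_not_dvd` : a non-unit not divisible by the prime `p` has a zero off `V(p)`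
  (no Krull principal ideal theorem is needed).
* `exists_factorization` : if every zero of `a ∉ π R` in the disc is `O`-rational, then
  `a = unit * ∏ (z - xᵢ)` with all `xᵢ ∈ π O` (a Weierstrass preparation without power series).
* `prod_sub_pow_mem` : `∏ (z - xᵢ) ≡ z ^ n` modulo `π`, so the number of zeros of `a` in the disc
  (with multiplicity) is the order of its reduction.
* `eval_eq_zero_iff` : the zeros of `a` among the `O`-points are exactly the points with
  coordinate in the multiset.
-/

namespace Fermat.Agent.S19.Disc.RegLocal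

open IsLocalRing

variable {O R : Type*} [CommRing O] [CommRing R] [Algebra O R]

section Points

variable [IsLocalRing R]

/-- An `O`-point of a local `O`-algebra maps non-units to non-units. -/
theorem not_isUnit_eval [Nontrivial O] (ev : R →ₐ[O] O) {f : R} (hf : f ∈ maximalIdeal R) :
    ¬ IsUnit (ev f) := by
  intro hu
  obtain ⟨u, hu⟩ := hu
  have h1 : IsUnit (algebraMap O R (u : O)) := u.isUnit.map (algebraMap O R)
  have h2 : IsUnit (algebraMap O R (u : O) - f) := by
    by_contra h
    have h3 : algebraMap O R (u : O) - f ∈ maximalIdeal R := (mem_maximalIdeal _).mpr h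
    have h4 : algebraMap O R (u : O) ∈ maximalIdeal R := by
      have := (maximalIdeal R).add_mem h3 hf
      simpa using this
    exact (mem_maximalIdeal _).mp h4 h1
  have h5 : ev (algebraMap O R (u : O) - f) = 0 := by
    rw [map_sub, AlgHom.commutes, ← hu]
    simp
  have h6 := h2.map ev
  rw [h5] at h6
  exact not_isUnit_zero h6

/-- The coordinate of an `O`-point lies in the maximal ideal `π O`. -/
theorem eval_param_dvd [Nontrivial O] (π : O) (hO : ∀ x : O, ¬ IsUnit x → π ∣ x) {z : R}
    (hz : z ∈ maximalIdeal R) (ev : R →ₐ[O] O) : π ∣ ev z :=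
  hO _ (not_isUnit_eval ev hz)

end Points

section Kernel

variable [IsDomain O] [IsNoetherianRing R] [IsLocalRing R]

/-- **The kernel of a point is principal.**  If the maximal ideal of `R` is `(π, z)` and
`ev : R → O` is an `O`-point with coordinate `x = ev z ∈ π O`, then `ker ev = (z - x)`. -/
theorem ker_eq_span_sub (π : O) (hπ : π ≠ 0) (z : R)
    (hmax : maximalIdeal R = Ideal.span {algebraMap O R π, z})
    (ev : R →ₐ[O] O) (hx : π ∣ ev z) :
    RingHom.ker (ev : R →+* O) = Ideal.span {z - algebraMap O R (ev z)} := by
  set w : R := z - algebraMap O R (ev z) with hw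
  have hevw : ev w = 0 := by simp [hw]
  have hπm : algebraMap O R π ∈ maximalIdeal R := by
    rw [hmax]; exact Ideal.subset_span (by simp)
  obtain ⟨y, hy⟩ := hx
  have hzw : z = w + algebraMap O R π * algebraMap O R y := by
    rw [hw, ← map_mul, ← hy]; ring
  apply le_antisymm
  · intro f hf
    have hf0 : ev f = 0 := hf
    -- every element of the kernel lies in `π ^ n R + (w)`
    have hmem : ∀ n : ℕ, ∀ f : R, ev f = 0 →
        ∃ g h : R, f = algebraMap O R π ^ n * g + w * h := by
      intro n
      induction n with
      | zero => intro f _; exact ⟨f, 0, by simp⟩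
      | succ n ih =>
        intro f hf
        obtain ⟨g, h, rfl⟩ := ih f hf
        have hg : ev g = 0 := by
          have h1 : ev (algebraMap O R π ^ n * g + w * h) = π ^ n * ev g := by
            rw [map_add, map_mul, map_mul, map_pow, AlgHom.commutes, hevw, zero_mul, add_zero]
            simp
          rw [h1] at hf
          exact (mul_eq_zero.mp hf).resolve_left (pow_ne_zero _ hπ)
        have hgm : g ∈ maximalIdeal R := by
          rw [mem_maximalIdeal]
          intro hu
          have := hu.map ev
          rw [hg] at this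
          exact not_isUnit_zero this
        rw [hmax, Ideal.mem_span_pair] at hgm
        obtain ⟨a, b, hab⟩ := hgm
        refine ⟨a + b * algebraMap O R y, h + algebraMap O R π ^ n * b, ?_⟩
        rw [← hab]
        conv_lhs => rw [hzw]
        ring
    have hkrull := Ideal.iInf_pow_smul_eq_bot_of_isLocalRing (R := R)
      (M := R ⧸ Ideal.span {w}) (maximalIdeal R)
      (Ideal.IsMaximal.ne_top (maximalIdeal.isMaximal R))
    have hmk : (Ideal.Quotient.mk (Ideal.span {w}) f : R ⧸ Ideal.span {w}) ∈
        (⨅ i : ℕ, maximalIdeal R ^ i • (⊤ : Submodule R (R ⧸ Ideal.span {w}))) := by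
      rw [Submodule.mem_iInf]
      intro i
      obtain ⟨g, h, hgh⟩ := hmem i f hf0
      have hw0 : Ideal.Quotient.mk (Ideal.span {w}) w = 0 :=
        Ideal.Quotient.eq_zero_iff_mem.mpr (Ideal.subset_span rfl)
      have h1 : (Ideal.Quotient.mk (Ideal.span {w}) f : R ⧸ Ideal.span {w}) =
          (algebraMap O R π ^ i) • (Ideal.Quotient.mk (Ideal.span {w}) g) := by
        rw [hgh, map_add, map_mul, map_mul, hw0, zero_mul, add_zero, Algebra.smul_def]
        rfl
      rw [h1]
      exact Submodule.smul_mem_smul (Ideal.pow_mem_pow hπm i) Submodule.mem_top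
    rw [hkrull] at hmk
    exact Ideal.Quotient.eq_zero_iff_mem.mp ((Submodule.mem_bot _).mp hmk)
  · rw [Ideal.span_singleton_le_iff_mem]
    exact hevw

/-- **Division with remainder at a point**: `f = f(P) + (z - x) f₁`. -/
theorem exists_eq_add_mul (π : O) (hπ : π ≠ 0) (z : R)
    (hmax : maximalIdeal R = Ideal.span {algebraMap O R π, z})
    (ev : R →ₐ[O] O) (hx : π ∣ ev z) (f : R) :
    ∃ f₁ : R, f = algebraMap O R (ev f) + (z - algebraMap O R (ev z)) * f₁ := by
  have h : f - algebraMap O R (ev f) ∈ RingHom.ker (ev : R →+* O) := by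
    show ev (f - algebraMap O R (ev f)) = 0
    simp
  rw [ker_eq_span_sub π hπ z hmax ev hx, Ideal.mem_span_singleton'] at h
  obtain ⟨f₁, hf₁⟩ := h
  exact ⟨f₁, by rw [mul_comm, hf₁]; ring⟩

end Kernel

section Taylor

variable [IsLocalRing R]

/-- **A point is determined by its coordinate.**  `S` is any `O`-algebra (for instance a
valuation ring of rank one containing `O`) in which the ideal generated by `π` and the common
coordinate `x` is separated; the residue field of `R` is that of `O`. -/
theorem eval_eq_of_param_eq {S : Type*} [CommRing S] [Algebra O S] (π : O) (z : R)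
    (hmax : maximalIdeal R = Ideal.span {algebraMap O R π, z})
    (hres : ∀ f : R, ∃ c : O, f - algebraMap O R c ∈ maximalIdeal R)
    (ev₁ ev₂ : R →ₐ[O] S) (hz : ev₁ z = ev₂ z)
    (hsep : ⨅ n : ℕ, (Ideal.span {algebraMap O S π, ev₁ z}) ^ n = ⊥) :
    ev₁ = ev₂ := by
  set I : Ideal S := Ideal.span {algebraMap O S π, ev₁ z} with hI
  have key : ∀ n : ℕ, ∀ f : R, ev₁ f - ev₂ f ∈ I ^ n := by
    intro n
    induction n with
    | zero => intro f; simp
    | succ n ih =>
      intro f
      obtain ⟨c, hc⟩ := hres f
      rw [hmax, Ideal.mem_span_pair] at hc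
      obtain ⟨a, b, hab⟩ := hc
      have hf : f = algebraMap O R c + (a * algebraMap O R π + b * z) := by
        rw [hab]; ring
      have h1 : ev₁ f - ev₂ f =
          (ev₁ a - ev₂ a) * algebraMap O S π + (ev₁ b - ev₂ b) * ev₁ z := by
        conv_lhs => rw [hf]
        simp only [map_add, map_mul, AlgHom.commutes]
        rw [← hz]
        ring
      rw [h1, pow_succ]
      refine Ideal.add_mem _ (Ideal.mul_mem_mul (ih a) ?_) (Ideal.mul_mem_mul (ih b) ?_)
      · exact Ideal.subset_span (by simp)
      · exact Ideal.subset_span (by simp)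
  ext f
  have h : ev₁ f - ev₂ f ∈ ⨅ n : ℕ, I ^ n := by
    rw [Ideal.mem_iInf]
    exact fun n => key n f
  rw [hsep] at h
  exact sub_eq_zero.mp ((Ideal.mem_bot).mp h)

end Taylor

section Zeros

variable [IsDomain R] [IsLocalRing R]

/-- **Zeros exist.**  A non-unit `a` that is not divisible by the prime `p` lies in a prime
ideal that does not contain `p`. -/
theorem exists_prime_of_not_dvd (p : R) (hp : Prime p) (a : R) (ha : a ∈ maximalIdeal R)
    (hpa : ¬ p ∣ a) : ∃ P : Ideal R, P.IsPrime ∧ a ∈ P ∧ p ∉ P := by
  have hunit : ∀ n : ℕ, a ∣ p ^ n → IsUnit a := by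
    intro n
    induction n with
    | zero => intro h; exact isUnit_of_dvd_one (by simpa using h)
    | succ n ih =>
      intro h
      obtain ⟨c, hc⟩ := h
      have h1 : p ∣ a * c := ⟨p ^ n, by rw [← hc, pow_succ]; ring⟩
      rcases hp.dvd_or_dvd h1 with h2 | h2
      · exact absurd h2 hpa
      · obtain ⟨c', rfl⟩ := h2
        apply ih
        refine ⟨c', ?_⟩
        have h3 : p * p ^ n = p * (a * c') := by rw [← pow_succ', hc]; ring
        exact mul_left_cancel₀ hp.ne_zero h3
  have hdisj : Disjoint ((Ideal.span {a} : Ideal R) : Set R) (Submonoid.powers p : Set R) := by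
    rw [Set.disjoint_left]
    rintro x hx ⟨n, rfl⟩
    exact (mem_maximalIdeal a).mp ha (hunit n (Ideal.mem_span_singleton.mp hx))
  obtain ⟨P, hP, haP, hPd⟩ := Ideal.exists_le_prime_disjoint (Ideal.span {a})
    (Submonoid.powers p) hdisj
  refine ⟨P, hP, haP (Ideal.subset_span rfl), fun hpP => ?_⟩
  exact Set.disjoint_left.mp hPd hpP ⟨1, pow_one p⟩

end Zeros

section Prod

/-- The product `∏ (z - xᵢ)` is congruent to `z ^ n` modulo `π` when all `xᵢ ∈ π O`. -/
theorem prod_sub_pow_mem (π : O) (z : R) (s : Multiset O) (hs : ∀ x ∈ s, π ∣ x) :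
    (s.map fun x => z - algebraMap O R x).prod - z ^ Multiset.card s ∈
      Ideal.span {algebraMap O R π} := by
  induction s using Multiset.induction_on with
  | empty => simp
  | cons x s ih =>
    have hx : algebraMap O R x ∈ Ideal.span {algebraMap O R π} := by
      obtain ⟨y, rfl⟩ := hs x (Multiset.mem_cons_self x s)
      rw [map_mul]
      exact Ideal.mul_mem_right _ _ (Ideal.subset_span rfl)
    have ih' := ih (fun y hy => hs y (Multiset.mem_cons_of_mem hy))
    rw [Multiset.map_cons, Multiset.prod_cons, Multiset.card_cons, pow_succ]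
    have h : (z - algebraMap O R x) * (s.map fun x => z - algebraMap O R x).prod -
        z ^ Multiset.card s * z =
        z * ((s.map fun x => z - algebraMap O R x).prod - z ^ Multiset.card s) -
          algebraMap O R x * (s.map fun x => z - algebraMap O R x).prod := by ring
    rw [h]
    exact Ideal.sub_mem _ (Ideal.mul_mem_left _ _ ih') (Ideal.mul_mem_right _ _ hx)

end Prod

section Factor

variable [IsDomain O] [IsDiscreteValuationRing O] [IsDomain R] [IsNoetherianRing R]
  [IsLocalRing R]

/-- **Weierstrass preparation on a regular disc, rational case.**  Let the maximal ideal of `R`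
be `(π, z)` with `π` prime in `R`.  If `a` is not divisible by `π` and every prime ideal
containing `a` but not `π` contains the kernel of an `O`-point, then
`a = unit * ∏ (z - xᵢ)` with all `xᵢ ∈ π O`. -/
theorem exists_factorization (π : O) (hπ : Irreducible π) (hπR : Prime (algebraMap O R π))
    (z : R) (hmax : maximalIdeal R = Ideal.span {algebraMap O R π, z}) :
    ∀ a : R, ¬ algebraMap O R π ∣ a →
      (∀ P : Ideal R, P.IsPrime → a ∈ P → algebraMap O R π ∉ P →
        ∃ ev : R →ₐ[O] O, RingHom.ker (ev : R →+* O) ≤ P) →
      ∃ (s : Multiset O) (c : Rˣ), (∀ x ∈ s, π ∣ x) ∧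
        a = c * (s.map fun x => z - algebraMap O R x).prod := by
  have hO : ∀ x : O, ¬ IsUnit x → π ∣ x := fun x hx => by
    have hx' : x ∈ maximalIdeal O := (mem_maximalIdeal x).mpr hx
    rw [(IsDiscreteValuationRing.irreducible_iff_uniformizer π).mp hπ] at hx'
    exact Ideal.mem_span_singleton.mp hx'
  have hzm : z ∈ maximalIdeal R := by
    rw [hmax]; exact Ideal.subset_span (by simp)
  intro a
  induction a using (wellFounded_dvdNotUnit (α := R)).induction with
  | _ a ih =>
    intro hpa hrat
    by_cases hu : IsUnit a
    · exact ⟨0, hu.unit, by simp, by simp⟩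
    · have ham : a ∈ maximalIdeal R := (mem_maximalIdeal a).mpr hu
      obtain ⟨P, hP, haP, hπP⟩ := exists_prime_of_not_dvd _ hπR a ham hpa
      obtain ⟨ev, hev⟩ := hrat P hP haP hπP
      have hx : π ∣ ev z := eval_param_dvd π hO hzm ev
      -- `ev a = 0`
      have hev0 : ev a = 0 := by
        by_contra hne
        obtain ⟨n, u, hnu⟩ := IsDiscreteValuationRing.eq_unit_mul_pow_irreducible hne hπ
        -- `π ^ n ∈ P`
        have h1 : algebraMap O R (ev a) - a ∈ RingHom.ker (ev : R →+* O) := by
          show ev (algebraMap O R (ev a) - a) = 0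
          simp
        have h2 : algebraMap O R (ev a) ∈ P := by
          have := P.add_mem (hev h1) haP
          simpa using this
        rw [hnu, map_mul, map_pow] at h2
        rcases hP.mem_or_mem h2 with h3 | h3
        · exact hP.ne_top (Ideal.eq_top_of_isUnit_mem _ h3 (u.isUnit.map (algebraMap O R)))
        · exact hπP (hP.mem_of_pow_mem n h3)
      have hker := ker_eq_span_sub π hπ.ne_zero z hmax ev hx
      have haw : a ∈ Ideal.span {z - algebraMap O R (ev z)} := by
        rw [← hker]; exact hev0
      rw [Ideal.mem_span_singleton'] at haw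
      obtain ⟨a₁, ha₁⟩ := haw
      have hwm : z - algebraMap O R (ev z) ∈ maximalIdeal R := by
        refine (maximalIdeal R).sub_mem hzm ?_
        obtain ⟨y, hy⟩ := hx
        rw [hy, map_mul, hmax]
        exact Ideal.mul_mem_right _ _ (Ideal.subset_span (by simp))
      have ha0 : a ≠ 0 := fun h => hpa (h ▸ dvd_zero _)
      have ha₁0 : a₁ ≠ 0 := fun h => ha0 (by rw [← ha₁, h, zero_mul])
      have hdnu : DvdNotUnit a₁ a :=
        ⟨ha₁0, z - algebraMap O R (ev z), (mem_maximalIdeal _).mp hwm, ha₁.symm⟩
      have hpa₁ : ¬ algebraMap O R π ∣ a₁ := fun h => hpa (ha₁ ▸ Dvd.dvd.mul_right h _)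
      have hrat₁ : ∀ P : Ideal R, P.IsPrime → a₁ ∈ P → algebraMap O R π ∉ P →
          ∃ ev : R →ₐ[O] O, RingHom.ker (ev : R →+* O) ≤ P := fun P hP h1 h2 =>
        hrat P hP (ha₁ ▸ P.mul_mem_right _ h1) h2
      obtain ⟨s, c, hs, hc⟩ := ih a₁ hdnu hpa₁ hrat₁
      refine ⟨ev z ::ₘ s, c, ?_, ?_⟩
      · intro x hxs
        rcases Multiset.mem_cons.mp hxs with rfl | h
        · exact hx
        · exact hs x h
      · rw [Multiset.map_cons, Multiset.prod_cons, ← ha₁, hc]
        ring

end Factor

section EvalZero

variable [IsDomain O]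

/-- The zeros of `c * ∏ (z - xᵢ)` among the `O`-points are the points with coordinate one of
the `xᵢ`. -/
theorem eval_eq_zero_iff (z : R) (s : Multiset O) (c : Rˣ) (ev : R →ₐ[O] O) :
    ev ((c : R) * (s.map fun x => z - algebraMap O R x).prod) = 0 ↔ ev z ∈ s := by
  have hc : ev (c : R) ≠ 0 := (c.isUnit.map ev).ne_zero
  rw [map_mul, mul_eq_zero, or_iff_right hc, map_multiset_prod, Multiset.map_map,
    Multiset.prod_eq_zero_iff]
  simp only [Function.comp_apply, map_sub, AlgHom.commutes, Multiset.mem_map]
  constructor
  · rintro ⟨x, hx, h⟩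
    rw [sub_eq_zero.mp h]; exact hx
  · intro h
    exact ⟨ev z, h, sub_self _⟩

end EvalZero

end Fermat.Agent.S19.Disc.RegLocal
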